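import Fermat.Agent.RT.LowerQ.Reduction
import Fermat.Agent.RT.LowerQ.Eigen

/-!
# Reduction on Kummer functions at a prime power modulus

At a prime `q ∤ M` of good reduction the reduction is bijective on `p ^ k`-torsion, `p ≠ q`; so every
residual Kummer function of modulus `p ^ k` lifts and the kernel property holds.
-/

set_option autoImplicit false
set_option synthInstance.maxHeartbeats 400000
set_option maxHeartbeats 1000000

noncomputable section

namespace Fermat.Agent.TwoAdic.Removal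

open AlgebraicCurve ModularCurve IsLocalRing
open Fermat.Agent.Semistable
open Fermat.Agent.RT
open Fermat.Agent.Arith (QBar GQ)
open MazurP (IsRed)

variable {A : ValuationSubring QBar} {q M : ℕ} [Fact q.Prime] [CharP (Res A) q]
  [NeZero M] [FF.IsFunctionField (Res A) (KM A M)] [FF.IsFunctionField QBar (FB M)]

/-- A reduction of a Kummer function is a Kummer function representing the reduced class. -/
theorem reductionModL_toTorsion_of_isRed_mod {m : ℕ} [NeZero m] (hA : A.LiesOverPrime q) (hNA : (M : Res A) ≠ 0)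
    (h : JacTorsion.divGrp QBar (FB M) m) {z : LaurentSeries (Res A)}
    (hz : IsRed A (((h : (FB M)ˣ) : FB M) : LSer) z) :
    ∃ e : JacTorsion.divGrp (Res A) (KM A M) m,
      (((e : (KM A M)ˣ) : KM A M) : LaurentSeries (Res A)) = z ∧
      reductionModL A M ((JacTorsion.toTorsion (Additive.ofMul h) : Pic0.torsion QBar (FB M) m) :
          JZero M) =
        ((JacTorsion.toTorsion (Additive.ofMul e) : Pic0.torsion (Res A) (KM A M) m) :
          JZeroC (Res A) M) := by
  have := Arith.residueField_isAlgClosed A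
  have hI := EichlerShimura.reductionInputsModL (A := A) (N := M) hNA
  set r := placeReductionModL hI with hrdef
  have hr := isPlaceReductionModL_placeReductionModL hI
  have hf0 : ((h : (FB M)ˣ) : FB M) ≠ 0 := Units.ne_zero _
  obtain ⟨z₀, hz₀, hd⟩ := LowerQ.exists_isRed_div hA hNA hr hf0
  obtain ⟨c, hc, hcz⟩ := IsRed.unique hz₀ hz
  set g : KM A M := algebraMap (Res A) (KM A M) c * z₀ with hgdef
  have hgz : (g : LaurentSeries (Res A)) = z := by rw [hcz, hgdef]; push_cast; rfl
  have hg0 : g ≠ 0 := fun h0 => hz.1 (by rw [← hgz, h0]; rfl)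
  have hz₀0 : z₀ ≠ 0 := fun h0 => hg0 (by rw [hgdef, h0, mul_zero])
  have hgd : FF.div (Res A) g = (m : ℤ) • Finsupp.mapDomain r (JacTorsion.divQuot h) := by
    rw [← Finsupp.mapDomain_smul, JacTorsion.smul_divQuot, hd]
    ext P
    rw [FF.div_apply, FF.div_apply, hgdef, P.ord_mul ((_root_.map_ne_zero _).mpr hc) hz₀0,
      FF.ord_algebraMap, zero_add]
  have hmem : Units.mk0 g hg0 ∈ JacTorsion.divGrp (Res A) (KM A M) m := fun P => by
    rw [Units.val_mk0, ← FF.div_apply, hgd, Finsupp.smul_apply, smul_eq_mul]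
    exact dvd_mul_right _ _
  refine ⟨⟨_, hmem⟩, hgz, ?_⟩
  show reductionModL A M (Pic0.mk _) = Pic0.mk _
  rw [reductionModL_mk hI]
  refine congrArg Pic0.mk (Subtype.ext (JacTorsion.eq_of_smul_eq (m := m) ?_))
  rw [coe_reductionDegZeroAlong]
  show (m : ℤ) • Finsupp.mapDomain r (JacTorsion.divQuot h) = (m : ℤ) • JacTorsion.divQuot _
  rw [← hgd, JacTorsion.smul_divQuot]
  rfl

variable {p : ℕ} [Fact p.Prime] {k : ℕ}

/-- Reduction is bijective on `p ^ k`-torsion. -/
theorem exists_torsion_lift_pow [NeZero (p ^ k)] (hA : A.LiesOverPrime q) (hqM : ¬ q ∣ M)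
    (hinj : EichlerShimura.InjectiveOnTorsion M) (hpq : p ≠ q)
    (y : Pic0.torsion (Res A) (KM A M) (p ^ k)) :
    ∃ x : Pic0.torsion QBar (FB M) (p ^ k),
      reductionModL A M (x : JZero M) = (y : JZeroC (Res A) M) := by
  classical
  have hNA := LowerQ.natCast_residue_ne_zero hA hqM
  have := Arith.residueField_isAlgClosed A
  have hp : p.Prime := Fact.out
  have hq : q.Prime := Fact.out
  have hqp : ¬ q ∣ p ^ k := fun h =>
    hpq ((Nat.prime_dvd_prime_iff_eq hq hp).mp (hq.dvd_of_dvd_pow h)).symm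
  let R : Pic0.torsion QBar (FB M) (p ^ k) → Pic0.torsion (Res A) (KM A M) (p ^ k) := fun x =>
    ⟨reductionModL A M (x : JZero M), by
      rw [Pic0.mem_torsion, ← map_zsmul, Pic0.mem_torsion.mp x.2, map_zero]⟩
  have hRinj : Function.Injective R := fun x x' hxx' => by
    refine Subtype.ext (sub_eq_zero.mp (hinj hqM A hA
      (EichlerShimura.reductionInputsModL hNA) (p ^ k) hqp _ ?_ ?_))
    · rw [← natCast_zsmul, zsmul_sub, Pic0.mem_torsion.mp x.2, Pic0.mem_torsion.mp x'.2, sub_self]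
    · rw [map_sub, sub_eq_zero]
      exact congrArg Subtype.val hxx'
  have h1 := CurveTorsion.natCard_torsion_pow_of_charZero QBar (FB M) p k
  have h2 := CurveTorsion.natCard_torsion_of_isFrob
    (Mazur.Eisenstein.isFrob_coeffAut M A (q := q) hA) p
    (fun h => hpq ((Nat.prime_dvd_prime_iff_eq hp hq).mp (by rwa [pow_one] at h))) k
  rw [FiniteFlat.genusFF_residue_eq hNA] at h2
  have hfin : Finite (Pic0.torsion (Res A) (KM A M) (p ^ k)) :=
    Nat.finite_of_card_ne_zero (by rw [h2]; exact pow_ne_zero _ hp.ne_zero)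
  obtain ⟨x, hx⟩ := (hRinj.bijective_of_nat_card_le (by rw [h1, h2])).2 y
  exact ⟨x, congrArg Subtype.val hx⟩

/-- Every residual Kummer function is, up to a `p ^ k`-th power, the reduction of one. -/
theorem exists_kummer_lift_pow [NeZero (p ^ k)] (hA : A.LiesOverPrime q) (hqM : ¬ q ∣ M)
    (hinj : EichlerShimura.InjectiveOnTorsion M) (hpq : p ≠ q) {z : KM A M} (hz : z ≠ 0)
    (hdiv : ∀ P : Place (Res A) (KM A M), ((p ^ k : ℕ) : ℤ) ∣ P.ord z) :
    ∃ (h : JacTorsion.divGrp QBar (FB M) (p ^ k)) (z' g : KM A M), g ≠ 0 ∧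
      MazurP.IsRed A (((h : (FB M)ˣ) : FB M) : LSer) (z' : LaurentSeries (Res A)) ∧
      z = z' * g ^ (p ^ k) := by
  have := Arith.residueField_isAlgClosed A
  have hNA := LowerQ.natCast_residue_ne_zero hA hqM
  let zu : JacTorsion.divGrp (Res A) (KM A M) (p ^ k) :=
    ⟨Units.mk0 z hz, fun P => by rw [Units.val_mk0]; exact hdiv P⟩
  obtain ⟨x, hx⟩ := exists_torsion_lift_pow hA hqM hinj hpq
    (JacTorsion.toTorsion (Additive.ofMul zu))
  obtain ⟨h, rfl⟩ := JacTorsion.toTorsion_surjective x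
  obtain ⟨z₀, hz₀, -⟩ := LowerQ.exists_isRed_div hA hNA
    (isPlaceReductionModL_placeReductionModL (EichlerShimura.reductionInputsModL (A := A) hNA))
    (f := (((h.toMul : JacTorsion.divGrp QBar (FB M) (p ^ k)) : (FB M)ˣ) : FB M)) (Units.ne_zero _)
  obtain ⟨e, he, hred⟩ := reductionModL_toTorsion_of_isRed_mod hA hNA h.toMul hz₀
  have h0 : JacTorsion.toTorsion (Additive.ofMul (zu / e)) = 0 := by
    rw [ofMul_div, map_sub, sub_eq_zero]
    refine Subtype.ext ?_
    rw [← hx, ← hred]
    rfl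
  obtain ⟨g, hg⟩ := (JacTorsion.toTorsion_eq_zero_iff _).mp h0
  refine ⟨h.toMul, (e : (KM A M)ˣ), g, Units.ne_zero _, by rw [he]; exact hz₀, ?_⟩
  have h' : g ^ (p ^ k) = (Units.mk0 z hz) / (e : (KM A M)ˣ) := by
    simpa [zu] using hg
  rw [eq_div_iff_mul_eq'] at h'
  rw [mul_comm]
  exact (congrArg Units.val h').symm.trans (by simp)

/-- The kernel property at a prime power modulus. -/
theorem kerProperty_pow [NeZero (p ^ k)] (hA : A.LiesOverPrime q) (hqM : ¬ q ∣ M)
    (hinj : EichlerShimura.InjectiveOnTorsion M) (hpq : p ≠ q) :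
    LowerQ.KerProperty A M (p ^ k) := by
  intro h g c hred
  have := Arith.residueField_isAlgClosed A
  have hNA := LowerQ.natCast_residue_ne_zero hA hqM
  have hp : p.Prime := Fact.out
  have hq : q.Prime := Fact.out
  obtain ⟨e, he, hr⟩ := reductionModL_toTorsion_of_isRed_mod hA hNA h hred
  obtain ⟨d, hd⟩ := IsAlgClosed.exists_pow_nat_eq c (pow_pos hp.pos k)
  have heq : ((e : (KM A M)ˣ) : KM A M) = (algebraMap (Res A) (KM A M) d * g) ^ (p ^ k) := by
    refine Subtype.ext (he.trans ?_)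
    rw [mul_pow, ← map_pow, hd]
    push_cast
    rfl
  have hne : algebraMap (Res A) (KM A M) d * g ≠ 0 := fun h0 => by
    rw [h0, zero_pow (pow_ne_zero _ hp.ne_zero)] at heq
    exact Units.ne_zero _ heq
  have he0 : JacTorsion.toTorsion (Additive.ofMul e) = 0 :=
    (JacTorsion.toTorsion_eq_zero_iff e).mpr ⟨Units.mk0 _ hne, Units.ext (by simpa using heq.symm)⟩
  refine Subtype.ext (hinj hqM A hA (EichlerShimura.reductionInputsModL hNA) (p ^ k)
    (fun hd' => hpq ((Nat.prime_dvd_prime_iff_eq hq hp).mp (hq.dvd_of_dvd_pow hd')).symm) _ ?_ ?_)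
  · rw [← natCast_zsmul]
    exact Pic0.mem_torsion.mp (JacTorsion.toTorsion (Additive.ofMul h)).2
  · rw [hr, he0]
    rfl

end Fermat.Agent.TwoAdic.Removal

end
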