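import Fermat.Agent.TwoAdic.Removal.Balanced
import Fermat.Agent.TwoAdic.Removal.Reduction
import Fermat.Agent.RT.LowerQ.Toric

/-!
# The two reductions of inertia-fixed eigen torsion

An inertia-fixed eigen class of level `q M` and order dividing `m`, `m` a power of a prime other
than `q`, has two reductions, eigen classes of level `M`; on the multiples killing both, Frobenius
is `-q w`.
-/

set_option autoImplicit false
set_option synthInstance.maxHeartbeats 400000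
set_option maxHeartbeats 1000000
set_option linter.unusedSectionVars false
set_option linter.style.haveILetI false

noncomputable section

namespace Fermat.Agent.TwoAdic.Removal

open AlgebraicCurve ModularCurve
open Fermat.Agent.JacTorsion (divGrp toTorsion)
open Fermat.Agent.Semistable Fermat.Agent.RT.Mazur Fermat.Agent.RT.MazurP Fermat.Agent.RT.LowerQ
open Arith (QBar GQ)

variable {A : ValuationSubring QBar} {p k q M M' : ℕ} [hp : Fact p.Prime] [hq : Fact q.Prime]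
  [NeZero M] [NeZero M'] [NeZero (p ^ k)] {hqM : ¬ q ∣ M} [CharP (Res A) q]
  [FF.IsFunctionField (Res A) (KM A M)] [FF.IsFunctionField (Res A) (KM A M')]
  [FF.IsFunctionField QBar (FB M)] [FF.IsFunctionField QBar (FB (q * M))]
  [FF.IsFunctionField QBar (FB (q * M'))]

/-- Frobenius on a class with constant reductions, for a prime power modulus. -/
theorem galois_add_wJ_eq_zero_pow (hA : A.LiesOverPrime q) (hMM' : M ∣ M')
    (hdeg : (p ^ k).Coprime (finrankAlong QBar (inclF (mul_dvd_mul_left q hMM') :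
      FB (q * M) →ₐ[QBar] FB (q * M'))))
    (hpq : p ≠ q) (hqM' : ¬ q ∣ M') (F : loc2 A (iota2 M q hqM))
    (fD : divGrp QBar (FB (q * M)) (p ^ k))
    (hfD : ((fD : (FB (q * M))ˣ) : FB (q * M)) = (F : FB (q * M)))
    (hred : ∀ s, red2 A (iota2 M q hqM) F s = 1) {σ : GQ} (hσ : A.IsFrobeniusAt σ q) :
    σ • (toTorsion (Additive.ofMul fD) : JZero (q * M)) +
      q • (wJ q M hqM • (toTorsion (Additive.ofMul fD) : JZero (q * M))) = 0 := by
  set j : FB (q * M) →ₐ[QBar] FB (q * M') := inclF (mul_dvd_mul_left q hMM') with hj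
  have hf' : ∀ w : Place QBar (FB (q * M')), ((p ^ k : ℕ) : ℤ) ∣ w.ord (j (F : FB (q * M))) :=
    fun w => by
      rw [Place.ord_restrictAlong _ (FF.isIntegralAlong _), ← hfD]
      exact dvd_mul_of_dvd_right (fD.2 _) _
  have hF0 : j (F : FB (q * M)) ≠ 0 := (map_ne_zero j).mpr (hfD ▸ Units.ne_zero _)
  let fD' : divGrp QBar (FB (q * M')) (p ^ k) := ⟨Units.mk0 _ hF0, hf'⟩
  have hS : Setup A M' q := Semistable.Unipotent.setup hA hqM'
  have hk : HasKummer hS (JacTorsion.divQuot fD') (p ^ k) 1 := by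
    refine ⟨fun _ => one_ne_zero, inclLoc (hqM' := hS.hqM) hMM' F, fun v => ?_, fun s => ?_⟩
    · have h1 := congrArg (fun D => D v) (JacTorsion.smul_divQuot fD')
      simp only [Finsupp.smul_apply, smul_eq_mul, FF.div_apply] at h1
      exact h1.symm
    · rw [red2_inclLoc, hred, Pi.one_apply, map_one]
  have key := Setup.frobenius_add_wAut_principal hσ (NeZero.ne (p ^ k))
    (fun hd => hpq ((Nat.prime_dvd_prime_iff_eq hq.out hp.out).1
      (hq.out.dvd_of_dvd_pow hd)).symm) hk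
  set t : JZero (q * M') := (toTorsion (Additive.ofMul fD') : JZero (q * M'))
  have h0 : σ • t + q • (wJ q M' hqM' • t) = 0 :=
    (QuotientAddGroup.eq_zero_iff _).mpr (AddSubgroup.mem_addSubgroupOf.mpr key)
  rw [galois_smul_toTorsion, smul_toTorsion, ← nsmul_toTorsion, ← add_toTorsion] at h0
  obtain ⟨G, -, hG⟩ := exists_eq_pow_of_toTorsion_eq_zero (Subtype.ext h0)
  set E := smulDiv (arithmeticGalois (modularFunctionFieldFull (q * M)) σ) fD *
    (smulDiv (wJ q M hqM) fD) ^ q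
  have hE : j ((E : (FB (q * M))ˣ) : FB (q * M)) = G ^ (p ^ k) := by
    rw [← hG]
    push_cast [E, coe_smulDiv_galois, coe_smulDiv_wJ]
    rw [map_mul, map_pow, hfD, hj, ← galF_inclF, ← wEquiv_inclF (hqM' := hqM') hMM']
    rfl
  obtain ⟨G₀, -, hG₀⟩ := exists_pow_descend j (NeZero.ne (p ^ k)) hdeg (Units.ne_zero _) hE
  have hE0 := congrArg Subtype.val (toTorsion_eq_zero_of_eq_pow hG₀)
  rw [add_toTorsion, nsmul_toTorsion, ← smul_toTorsion, ← smul_toTorsion,
    ← galois_smul_pic0_def] at hE0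
  exact hE0

omit [FF.IsFunctionField (Res A) (KM A M')] [FF.IsFunctionField QBar (FB (q * M))]
  [FF.IsFunctionField QBar (FB (q * M'))] in
/-- If a multiple of the lift vanishes, that power of the reduction is a `p ^ k`-th power. -/
theorem exists_pow_eq_of_nsmul_eq_zero (hA : A.LiesOverPrime q) (hM : (M : Res A) ≠ 0)
    (h : divGrp QBar (FB M) (p ^ k)) {z' g : KM A M} {z : KM A M} (hg : g ≠ 0)
    (hh : IsRed A (((h : (FB M)ˣ) : FB M) : LSer) (z' : LaurentSeries (Res A)))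
    (hz : z = z' * g ^ (p ^ k)) {c : ℕ}
    (hc : c • (toTorsion (Additive.ofMul h) : JZero M) = 0) :
    ∃ G : KM A M, G ≠ 0 ∧ z ^ c = G ^ (p ^ k) := by
  have := Arith.residueField_isAlgClosed A
  rw [← nsmul_toTorsion] at hc
  obtain ⟨g₀, hg₀, hhg⟩ := exists_eq_pow_of_toTorsion_eq_zero (f := h ^ c) (Subtype.ext hc)
  obtain ⟨w, hw⟩ := IsRed.exists_of_ne_zero hA hq.out (mem_fracS_of_mem g₀)
    (fun h0 => hg₀ (Subtype.ext h0))
  have hwK : w ∈ KM A M := mem_KM_of_isRed hM hw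
  have hh' := hh.pow c
  push_cast at hhg
  have e : ((((h : (FB M)ˣ) : FB M)) : LSer) ^ c = ((g₀ : FB M) : LSer) ^ (p ^ k) := by
    exact_mod_cast hhg
  rw [e] at hh'
  obtain ⟨d, hd, hzd⟩ := (hw.pow (p ^ k)).unique hh'
  obtain ⟨r, hr⟩ := IsAlgClosed.exists_pow_nat_eq d (NeZero.pos (p ^ k))
  refine ⟨algebraMap (Res A) (KM A M) r * ⟨w, hwK⟩ * g ^ c, mul_ne_zero (mul_ne_zero
    ((map_ne_zero _).mpr fun h0 => hd (by rw [← hr, h0, zero_pow (NeZero.ne (p ^ k))]))
    fun h0 => hw.1 (congrArg Subtype.val h0)) (pow_ne_zero _ hg), ?_⟩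
  rw [hz, mul_pow, mul_pow, mul_pow, ← map_pow, hr, ← pow_mul, ← pow_mul, mul_comm c]
  congr 1
  refine Subtype.ext ?_
  push_cast
  rw [hzd]

end Fermat.Agent.TwoAdic.Removal

namespace Fermat.Agent.TwoAdic.Removal

open AlgebraicCurve ModularCurve
open Fermat.Agent.JacTorsion (divGrp toTorsion)
open Fermat.Agent.Semistable Fermat.Agent.RT.Mazur Fermat.Agent.RT.MazurP Fermat.Agent.RT.LowerQ
open Arith (QBar GQ)

/-- An integer prime to `n` acts injectively on `n`-torsion. -/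
theorem eq_zero_of_zsmul_eq_zero_mod {G : Type*} [AddCommGroup G] {n : ℕ} {u : ℤ}
    (hu : IsCoprime u (n : ℤ)) {y : G} (hy : n • y = 0) (huy : u • y = 0) : y = 0 := by
  obtain ⟨a, b, hab⟩ := hu
  rw [← one_zsmul y, ← hab, add_zsmul, mul_zsmul, mul_zsmul, huy, natCast_zsmul, hy,
    zsmul_zero, zsmul_zero, add_zero]

/-- **The pair of reductions.** -/
theorem exists_reductions {p k q M M' : ℕ} [hp : Fact p.Prime] [hq : Fact q.Prime] [NeZero M]
    [NeZero M'] (hqM : ¬ q ∣ M) (hqM' : ¬ q ∣ M') (hpq : p ≠ q) (haux : AuxLevel p M M')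
    {S : Finset ℕ} (hS : ∀ ℓ : ℕ, ℓ.Prime → ℓ ∣ q * M → ℓ ∈ S) (a : ℕ → ℤ)
    (hodd : ∃ ℓ : ℕ, ℓ.Prime ∧ ℓ ∉ S ∧ IsCoprime (a ℓ - ((ℓ : ℤ) + 1)) ((p ^ k : ℕ) : ℤ))
    (A : ValuationSubring QBar) (hA : A.LiesOverPrime q) (x : JZero (q * M))
    (hx : (p ^ k) • x = 0)
    (heig : ∀ (ℓ : ℕ) (hℓ : ℓ.Prime), ℓ ∉ S →
      heckeOperatorBar (q * M) ⟨ℓ, hℓ⟩ x = a ℓ • x)
    (hfix : ∀ τ ∈ A.inertiaSubgroupIn ℚ, τ • x = x) :
    ∃ z : Fin 2 → JZero M,
      (∀ s, (p ^ k) • z s = 0 ∧ ∀ (ℓ : ℕ) (hℓ : ℓ.Prime), ℓ ∉ S →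
        heckeOperatorBar M ⟨ℓ, hℓ⟩ (z s) = a ℓ • z s) ∧
      ∀ σ : GQ, A.IsFrobeniusAt σ q → ∀ c : ℕ, (∀ s, c • z s = 0) →
        c • (σ • x + q • (wJ q M hqM • x)) = 0 := by
  obtain ⟨hMM', he, d, hd, hψ⟩ := haux
  have hpk : NeZero (p ^ k) := ⟨pow_ne_zero _ hp.out.ne_zero⟩
  haveI : CharP (Res A) q := Arith.residueField_charP hA hq.out
  haveI := Arith.residueField_isAlgClosed A
  have hM : (M : Res A) ≠ 0 := EichlerShimura.natCast_ne_zero hq.out hqM hA
  have hM' : (M' : Res A) ≠ 0 := EichlerShimura.natCast_ne_zero hq.out hqM' hA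
  haveI : FF.IsFunctionField (Res A) (KM A M) := RedTorsion.isFunctionField_full rfl hM
  haveI : FF.IsFunctionField (Res A) (KM A M') := RedTorsion.isFunctionField_full rfl hM'
  haveI : FF.IsFunctionField QBar (FB M) := ModFun.isFunctionField_bar M
  haveI : FF.IsFunctionField QBar (FB (q * M)) := ModFun.isFunctionField_bar (q * M)
  haveI : FF.IsFunctionField QBar (FB (q * M')) := ModFun.isFunctionField_bar (q * M')
  obtain ⟨l, hl, hlS, hal⟩ := hodd
  obtain ⟨F, fD, hfD, hFfix, hne, hy⟩ := exists_balanced_mod hA (hqM := hqM) hx hfix hl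
    (fun h => hlS (hS l hl h)) (heig l hl hlS)
  set u : ℤ := a l - ((l : ℤ) + 1)
  have hinj : EichlerShimura.InjectiveOnTorsion M := RedTorsion.injectiveOnTorsion M
  have hdK := (coprime_finrankAlong_inclK_of_psi hd hψ hM hM' hMM' :
    p.Coprime (finrankAlong (Res A) (inclK A hMM'))).pow_left k
  have hdF := (coprime_finrankAlong_inclF_of_psi hd hψ hqM hqM' hMM').pow_left k
  -- the two reductions
  set F' : loc2 A (iota2 M' q hqM') := inclLoc (hqM' := hqM') hMM' F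
  have hfix' : InertiaFixed A ((F' : FB (q * M')) : LSer) := by
    show InertiaFixed A (inclF (mul_dvd_mul_left q hMM') (F : FB (q * M)) : LSer)
    rw [coe_inclF]
    exact hFfix
  have hdiv' : ∀ w : Place QBar (FB (q * M')), ((p ^ k : ℕ) : ℤ) ∣ w.ord (F' : FB (q * M')) :=
    fun w => by
      show ((p ^ k : ℕ) : ℤ) ∣ w.ord (inclF (mul_dvd_mul_left q hMM') (F : FB (q * M)))
      rw [Place.ord_restrictAlong _ (FF.isIntegralAlong _), ← hfD]
      exact dvd_mul_of_dvd_right (fD.2 _) _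
  have hne' : ∀ s, red2 A (iota2 M' q hqM') F' s ≠ 0 := fun s => by
    rw [red2_inclLoc]; exact hne s
  have hz0 : ∀ s, redK hM F s ≠ 0 := fun s h0 => hne s (congrArg Subtype.val h0)
  have hord : ∀ s, ∀ P : Place (Res A) (KM A M), ((p ^ k : ℕ) : ℤ) ∣ P.ord (redK hM F s) :=
    fun s => dvd_ord_descend (inclK A hMM') hdK (hz0 s) fun w => by
      rw [show inclK A hMM' (redK hM F s) = redK hM' F' s from Subtype.ext (by
        rw [coe_inclK, coe_redK, coe_redK, red2_inclLoc])]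
      exact dvd_ord_red_of_ellFree hA he (NeZero.pos (p ^ k)) hfix' hdiv' hne' hM' s w
  choose h z' g hg hh hzg using fun s => exists_kummer_lift_pow hA hqM hinj hpq (hz0 s) (hord s)
  have hker : KerProperty A M (p ^ k) := kerProperty_pow hA hqM hinj hpq
  refine ⟨fun s => (toTorsion (Additive.ofMul (h s)) : JZero M),
    fun s => ⟨nsmul_m_toTorsion (h s), fun ℓ hℓ hℓS => ?_⟩, fun σ hσ c hc => ?_⟩
  · set t : ℕ := (a ℓ % ((p ^ k : ℕ) : ℤ)).toNat
    have ht : ∀ {G : Type} [AddCommGroup G] (y : G), (p ^ k) • y = 0 → a ℓ • y = t • y := by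
      intro G _ y hy
      have h1 : (t : ℤ) = a ℓ % ((p ^ k : ℕ) : ℤ) :=
        Int.toNat_of_nonneg (Int.emod_nonneg _ (Int.natCast_ne_zero.mpr (NeZero.ne _)))
      conv_lhs => rw [← Int.emod_add_mul_ediv (a ℓ) ((p ^ k : ℕ) : ℤ), ← h1]
      rw [add_zsmul, mul_comm, mul_zsmul, natCast_zsmul, natCast_zsmul, hy, zsmul_zero, add_zero]
    rw [ht _ (nsmul_m_toTorsion (h s))]
    refine eigen_of_red hker hA hM hℓ (fun hd' => hℓS (hS ℓ hℓ hd')) F fD hfD ?_ s (hne s)
      (h s) (hh s) (hzg s)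
    rw [hy, map_zsmul, heig ℓ hℓ hℓS, ← ht _ (by
      rw [← natCast_zsmul, smul_comm, natCast_zsmul, hx, zsmul_zero]), smul_comm]
  · -- adjust to constant reductions
    obtain ⟨G₀, hG₀, e₀⟩ := exists_pow_eq_of_nsmul_eq_zero hA hM (h 0) (hg 0) (hh 0) (hzg 0) (hc 0)
    obtain ⟨G₁, hG₁, e₁⟩ := exists_pow_eq_of_nsmul_eq_zero hA hM (h 1) (hg 1) (hh 1) (hzg 1) (hc 1)
    obtain ⟨y, hyred⟩ := red2_surjective (hqM := hqM) (M := M) (q := q) hM G₀.2 G₁.2
    have hy0 : ∀ s, red2 A (iota2 M q hqM) y s ≠ 0 := fun s => by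
      rw [hyred]
      fin_cases s
      · exact fun h0 => hG₀ (Subtype.ext h0)
      · exact fun h0 => hG₁ (Subtype.ext h0)
    obtain ⟨hi, hi'⟩ := inv_mem_loc2 (iota2 M q hqM) y hy0
    have hred : ∀ s, red2 A (iota2 M q hqM) (F ^ c * ⟨_, hi⟩ ^ (p ^ k)) s = 1 := fun s => by
      rw [map_mul, map_pow, map_pow, Pi.mul_apply, Pi.pow_apply, Pi.pow_apply, hi', inv_pow]
      refine mul_inv_eq_one₀ (pow_ne_zero _ (hy0 s)) |>.mpr ?_
      rw [← coe_redK hM, hyred]
      fin_cases s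
      · exact congrArg Subtype.val e₀
      · exact congrArg Subtype.val e₁
    have hyv : ((y : FB (q * M)))⁻¹ ≠ 0 := inv_ne_zero fun h0 => hy0 0 (by
      rw [show y = 0 from Subtype.ext h0, map_zero]; rfl)
    let gy : divGrp QBar (FB (q * M)) (p ^ k) := ⟨(Units.mk0 _ hyv) ^ (p ^ k), fun v => by
      rw [Units.val_pow_eq_pow_val, FF.ord_pow]; exact dvd_mul_right _ _⟩
    have hgy : toTorsion (Additive.ofMul gy) = 0 :=
      toTorsion_eq_zero_of_eq_pow (g := (y : FB (q * M))⁻¹) (Units.val_pow_eq_pow_val _ (p ^ k))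
    have h1 := galois_add_wJ_eq_zero_pow hA hMM' hdF hpq hqM' (F ^ c * ⟨_, hi⟩ ^ (p ^ k))
      (fD ^ c * gy) (by push_cast [gy, hfD]; rfl) hred hσ
    rw [add_toTorsion, hgy, ZeroMemClass.coe_zero, add_zero, nsmul_toTorsion, hy,
      galois_nsmul_jac, smul_nsmul_jac, galois_zsmul_jac, smul_zsmul_jac, smul_comm q c,
      ← nsmul_add, ← zsmul_nsmul_comm u q, ← zsmul_add, ← zsmul_nsmul_comm] at h1
    refine eq_zero_of_zsmul_eq_zero_mod hal ?_ h1
    rw [smul_comm (p ^ k) c, nsmul_add, ← galois_nsmul_jac, smul_comm (p ^ k) q,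
      ← smul_nsmul_jac, hx]
    have h2 : σ • (0 : JZero (q * M)) = 0 :=
      (DistribSMul.toAddMonoidHom (Pic0 QBar (FB (q * M)))
        (arithmeticGalois (modularFunctionFieldFull (q * M)) σ)).map_zero
    have h3 : wJ q M hqM • (0 : JZero (q * M)) = 0 :=
      (DistribSMul.toAddMonoidHom (Pic0 QBar (FB (q * M))) (wJ q M hqM)).map_zero
    rw [h2, h3, nsmul_zero, add_zero, nsmul_zero]

end Fermat.Agent.TwoAdic.Removal

end
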