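import Fermat.Agent.TwoAdic.Removal.Algebra
import Fermat.Agent.TwoAdic.Residual.Level
import Fermat.Agent.TwoAdic.Removal.Geometry

/-!
# Removing an auxiliary prime from eigen points

An eigen point of exact order `2 ^ m` at level `q M` gives one at level `M`: some Galois translate
has a nonvanishing reduction at full order, as otherwise the Frobenius at `q` would be central
modulo `2`.
-/

set_option autoImplicit false
set_option synthInstance.maxHeartbeats 400000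
set_option maxHeartbeats 1000000

noncomputable section

open WeierstrassCurve ModularCurve AlgebraicCurve

namespace Fermat.Agent.TwoAdic.Removal

open Arith (QBar GQ)
open RT.LowerQ (wJ AuxLevel)

theorem ellFree_two_mul {M r : ℕ} [NeZero M] (hr : r.Prime) (hrM : r ∣ M) (hr4 : r % 4 = 3) :
    RT.Mazur.EllFree (2 * M) := by
  haveI := Fact.mk hr
  refine ⟨Nat.card_eq_zero.mpr (Or.inl ⟨fun ⟨y, hy⟩ => ?_⟩),
    Nat.card_eq_zero.mpr (Or.inl ⟨fun ⟨y, hy⟩ => ?_⟩)⟩
  · have h := congrArg (ZMod.castHom (dvd_mul_of_dvd_right hrM 2) (ZMod r)) hy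
    rw [map_add, map_pow, map_one, map_zero, add_eq_zero_iff_eq_neg] at h
    exact ZMod.exists_sq_eq_neg_one_iff.mp
      ⟨ZMod.castHom (dvd_mul_of_dvd_right hrM 2) (ZMod r) y, by rw [← h]; ring⟩ hr4
  · have h := congrArg (ZMod.castHom (dvd_mul_right 2 M) (ZMod 2)) hy
    rw [map_add, map_add, map_pow, map_one, map_zero] at h
    generalize ZMod.castHom (dvd_mul_right 2 M) (ZMod 2) y = z at h
    revert h
    revert z
    decide

theorem exists_prime_mod_four {N : ℕ} (hN : N % 4 = 3) : ∃ r : ℕ, r.Prime ∧ r ∣ N ∧ r % 4 = 3 := by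
  induction N using Nat.strong_induction_on with
  | _ N ih =>
    obtain ⟨p, hp, k, rfl⟩ := Nat.exists_prime_and_dvd (show N ≠ 1 by omega)
    by_cases hp4 : p % 4 = 3
    · exact ⟨p, hp, dvd_mul_right p k, hp4⟩
    have hk : k % 4 = 3 := by
      rw [Nat.mul_mod] at hN
      have h1 := Nat.mod_lt p (show 4 > 0 by omega)
      have h2 := Nat.mod_lt k (show 4 > 0 by omega)
      interval_cases hpm : p % 4 <;> omega
    obtain ⟨r, hr, hrk, hr4⟩ := ih k (lt_mul_left (by omega) hp.one_lt) hk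
    exact ⟨r, hr, dvd_mul_of_dvd_right hrk p, hr4⟩

theorem auxLevel_two_mul {W : WeierstrassCurve ℤ} (hW : IsClassC W) {M : ℕ} [NeZero M]
    (hM : Odd M) (hNM : W.conductorLevel ∣ M) : AuxLevel 2 M (2 * M) := by
  have hN := Residual.conductorLevel_mod_eight hW
  obtain ⟨r, hr, hrN, hr4⟩ := exists_prime_mod_four (N := W.conductorLevel) (by omega)
  refine ⟨dvd_mul_left M 2, ellFree_two_mul hr (hrN.trans hNM) hr4, 3, ?_, ?_⟩
  · norm_num
  · exact Gamma0.dedekindPsi_mul_of_not_dvd Nat.prime_two hM.not_two_dvd_nat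

/-- **Auxiliary primes can be removed without loss.** -/
theorem removalInput : RemovalInput := by
  intro W hW
  refine ⟨0, ?_⟩
  intro q M _ _ S m hsq hodd hNM haux h2 hS hgood hx
  obtain ⟨x, hord, heig⟩ := hx
  rcases Nat.eq_zero_or_pos m with rfl | hm
  · exact ⟨0, by simp, fun ℓ hℓ _ => by rw [map_zero, zsmul_zero]⟩
  have hq := haux.prime
  haveI := Fact.mk hq
  haveI : NeZero (2 ^ m : ℕ) := ⟨pow_ne_zero m two_ne_zero⟩
  haveI : NeZero (2 * M) := ⟨Nat.mul_ne_zero two_ne_zero (NeZero.ne M)⟩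
  have hqM : ¬ q ∣ M := fun h => hq.not_isUnit (hsq q (mul_dvd_mul_left q h))
  have hqM' : ¬ q ∣ 2 * M := fun h => (hq.dvd_mul.mp h).elim
    (fun h' => haux.ne_two ((Nat.prime_dvd_prime_iff_eq hq Nat.prime_two).mp h')) hqM
  have hMo : Odd M := (Nat.odd_mul.mp hodd).2
  -- a prime with odd eigenvalue
  obtain ⟨g, hg⟩ := exists_rhoBar_eq hW (X := !![0, 1; 1, 1]) (by decide)
  obtain ⟨L, hL, hrL⟩ := isFiniteLevel_rhoPow (W := W) hW.Δ_ne_zero 1
  obtain ⟨l, hl, hlS, B, hB, τ, hτ, he⟩ :=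
    Arith.Chebotarev.exists_frobenius_eq (rhoPow W hW.Δ_ne_zero 1) L hrL g S
  have hl2 : l ≠ 2 := fun h => hlS (h ▸ h2)
  have hcop : IsCoprime (W.apOfModel l - ((l : ℤ) + 1)) ((2 ^ m : ℕ) : ℤ) := by
    push_cast
    refine IsCoprime.pow_right (Int.prime_two.coprime_iff_not_dvd.mpr fun hdvd => ?_).symm
    have h1 := trace_cast_two hW Nat.one_pos τ
    rw [(rhoPow_frobenius hW.Δ_ne_zero hl hl2 (hgood l hl hlS) hB hτ 1).1, map_intCast,
      ← rhoPow_map hW.Δ_ne_zero (ZMod.castHom (dvd_pow_self 2 one_ne_zero) (ZMod 2)) τ, he,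
      rhoPow_map hW.Δ_ne_zero (ZMod.castHom (dvd_pow_self 2 one_ne_zero) (ZMod 2)) g, hg] at h1
    have h3 := (ZMod.intCast_zmod_eq_zero_iff_dvd _ 2).mpr hdvd
    obtain ⟨j, hj⟩ := hl.odd_of_ne_two hl2
    push_cast at h3
    rw [h1, show (l : ZMod 2) = ((2 * j + 1 : ℕ) : ZMod 2) by rw [← hj]] at h3
    push_cast at h3
    revert h3
    generalize ((j : ℕ) : ZMod 2) = y
    revert y
    decide
  -- a translate not killed by the kernel relation
  obtain ⟨A, hA⟩ := Arith.exists_liesOverPrime hq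
  obtain ⟨σ, hσ⟩ := Arith.exists_isFrobeniusAt hA hq
  have hxE : x ∈ EigPow W (q * M) S m := ⟨by rw [← hord]; exact addOrderOf_nsmul_eq_zero x, heig⟩
  have hx2 : (2 ^ (m - 1)) • x ≠ 0 := fun h => by
    have h1 := Nat.le_of_dvd (pow_pos two_pos _) (addOrderOf_dvd_of_nsmul_eq_zero h)
    rw [hord] at h1
    exact absurd h1 (not_le.mpr (Nat.pow_lt_pow_right Nat.one_lt_two (by omega)))
  obtain ⟨hσ2, hσ1⟩ := haux.frob_invol A hA σ hσ
  obtain ⟨g₀, hg₀⟩ := exists_galois_nonkilled hS h2 hgood hW hm hxE hx2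
    (DistribSMul.toAddMonoidHom (JZero (q * M)) (wJ q M hqM))
    (fun g y => RT.LowerQ.wJ_smul_comm_galois hqM g y) (hq.odd_of_ne_two haux.ne_two) hσ2 hσ1
  have hy := galois_mem_eigPow hxE g₀
  have hfix : ∀ τ ∈ A.inertiaSubgroupIn ℚ, τ • g₀ • x = g₀ • x := fun τ hτ => by
    refine smul_eq_of_rhoPow_eq_one hS h2 hgood hW hm hy ?_
    rw [rhoPow_eq, rho_eq_one_of_inertia hW.Δ_ne_zero hq haux.ne_two haux.good hA hτ]
    exact Matrix.map_one _ (map_zero _) (map_one _)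
  obtain ⟨z, hz, hzk⟩ := exists_reductions (p := 2) (k := m) hqM hqM' haux.ne_two.symm
    (auxLevel_two_mul hW hMo hNM) hS W.apOfModel ⟨l, hl, hlS, hcop⟩ A hA (g₀ • x) hy.1 hy.2 hfix
  obtain ⟨s, hs⟩ : ∃ s, (2 ^ (m - 1)) • z s ≠ 0 := by
    by_contra h
    push Not at h
    exact hg₀ (hzk σ hσ _ h)
  refine ⟨z s, ?_, (hz s).2⟩
  rw [Nat.sub_zero]
  obtain ⟨n, rfl⟩ : ∃ n, m = n + 1 := ⟨m - 1, by omega⟩
  exact addOrderOf_eq_prime_pow (p := 2) (by simpa using hs) (hz s).1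

end Fermat.Agent.TwoAdic.Removal
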