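import Fermat.Agent.TwoAdic.Removal.Quadratic
import Fermat.Agent.TwoAdic.Galois.Interface
import Fermat.Agent.TwoAdic.Galois.Residual
import Fermat.Agent.TwoAdic.Congruence.Curve
import Fermat.Agent.GaloisReps.Models
import Fermat.Agent.GaloisReps.HeckeGalois
import Fermat.Agent.Arith.Chebotarev.Main
import Fermat.Agent.JacTorsion.Main
import Fermat.Agent.RT.LowerQ.Principle

/-!
# Eigen torsion of a curve in the class

On points of order dividing `2 ^ m` with the Hecke eigenvalues of a curve in the class the kernel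
of `rhoPow m` acts trivially, and a map commuting with the Galois action does not agree with an
involution of `E[2]` on the multiples of order `2`.
-/

set_option autoImplicit false
set_option synthInstance.maxHeartbeats 400000
set_option maxHeartbeats 1000000

noncomputable section

open WeierstrassCurve ModularCurve AlgebraicCurve

namespace Fermat.Agent.TwoAdic.Removal

open Arith (QBar GQ)
open RT.LowerQ (galois_zsmul_jac galois_nsmul_jac)

variable (W : WeierstrassCurve ℤ) (N : ℕ) [NeZero N] (S : Finset ℕ) (m : ℕ)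

/-- The `2 ^ m`-torsion points with the eigenvalues of the curve outside `S`. -/
def EigPow : AddSubgroup (JZero N) where
  carrier := {x | (2 ^ m) • x = 0 ∧ ∀ (ℓ : ℕ) (hℓ : ℓ.Prime), ℓ ∉ S →
    heckeOperatorBar N ⟨ℓ, hℓ⟩ x = W.apOfModel ℓ • x}
  zero_mem' := ⟨nsmul_zero _, fun ℓ hℓ _ => (map_zero _).trans (zsmul_zero _).symm⟩
  add_mem' := fun {x y} hx hy => ⟨by rw [nsmul_add, hx.1, hy.1, add_zero], fun ℓ hℓ hS => by
    rw [map_add, hx.2 ℓ hℓ hS, hy.2 ℓ hℓ hS]
    exact (zsmul_add x y _).symm⟩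
  neg_mem' := fun {x} hx => ⟨by rw [neg_nsmul, hx.1, neg_zero], fun ℓ hℓ hS => by
    rw [map_neg, hx.2 ℓ hℓ hS]
    exact (zsmul_neg x _).symm⟩

variable {W N S m}

theorem galois_zero_jac (g : GQ) : g • (0 : JZero N) = 0 := by
  have h := galois_nsmul_jac g 0 (0 : JZero N)
  rwa [zero_nsmul, zero_nsmul] at h

theorem galois_mem_eigPow {x : JZero N} (hx : x ∈ EigPow W N S m) (g : GQ) :
    g • x ∈ EigPow W N S m :=
  ⟨by rw [← galois_nsmul_jac, hx.1, galois_zero_jac], fun ℓ hℓ hℓS => by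
    refine (GaloisReps.galois_heckeOperatorBar N ⟨ℓ, hℓ⟩ g x).symm.trans ?_
    rw [hx.2 ℓ hℓ hℓS, galois_zsmul_jac]⟩

instance : Module (ZMod (2 ^ m)) (EigPow W N S m) :=
  AddCommGroup.zmodModule fun y => Subtype.ext y.2.1

variable (W N S m) in
/-- The Galois action on eigen torsion. -/
def eigAct (g : GQ) : EigPow W N S m →+ EigPow W N S m where
  toFun y := ⟨g • (y : JZero N), galois_mem_eigPow y.2 g⟩
  map_zero' := Subtype.ext (galois_zero_jac g)
  map_add' y z := Subtype.ext (smul_add g (y : JZero N) (z : JZero N))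

theorem coe_eigAct (g : GQ) (y : EigPow W N S m) :
    ((eigAct W N S m g y : EigPow W N S m) : JZero N) = g • (y : JZero N) := rfl

variable (W N S m) in
/-- The Galois representation on eigen torsion. -/
def eigRep : GQ →* Module.End (ZMod (2 ^ m)) (EigPow W N S m) where
  toFun g := (eigAct W N S m g).toZModLinearMap (2 ^ m)
  map_one' := LinearMap.ext fun y => Subtype.ext
    ((coe_eigAct (1 : GQ) y).trans (one_smul GQ (y : JZero N)))
  map_mul' g h := LinearMap.ext fun y => Subtype.ext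
    ((coe_eigAct (g * h) y).trans (mul_smul g h (y : JZero N)))

theorem coe_eigRep (g : GQ) (y : EigPow W N S m) :
    ((eigRep W N S m g y : EigPow W N S m) : JZero N) = g • (y : JZero N) := rfl

variable (hΔ : W.Δ ≠ 0) (hS : ∀ ℓ : ℕ, ℓ.Prime → ℓ ∣ N → ℓ ∈ S) (h2 : 2 ∈ S)
  (hgood : ∀ ℓ : ℕ, ℓ.Prime → ℓ ∉ S → W.IsGoodPrimeFor ℓ)

include hS h2 hgood in
/-- The characteristic polynomials of `rhoPow m` on eigen torsion. -/
theorem quadratic {x : JZero N} (hx : x ∈ EigPow W N S m) (g : GQ) (t d : ℤ)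
    (ht : (t : ZMod (2 ^ m)) = (rhoPow W hΔ m g).trace)
    (hd : (d : ZMod (2 ^ m)) = (rhoPow W hΔ m g).det) :
    g • g • x - t • (g • x) + d • x = 0 := by
  classical
  haveI : NeZero (2 ^ m : ℕ) := ⟨pow_ne_zero m two_ne_zero⟩
  let V := Pic0.torsion QBar (modularFunctionFieldBar N) (2 ^ m : ℕ)
  haveI : Finite V := JacTorsion.finite_torsion_JZero N (m := 2 ^ m)
  let ψ : GQ →* Module.End (ZMod (2 ^ m)) V := JZero.torsionGaloisRep N (2 ^ m)
  have hval : ∀ (g : GQ) (v : V), ((ψ g v : V) : JZero N) = g • (v : JZero N) :=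
    fun g v => JZero.coe_torsionGaloisRep_apply N g v
  obtain ⟨L, hL, hrL⟩ := isFiniteLevel_rhoPow (W := W) hΔ m
  choose Lv hLv hfix using fun v : V => GaloisReps.exists_fixing_torsion N v
  haveI : FiniteDimensional ℚ (⨆ v : V, Lv v : IntermediateField ℚ QBar) :=
    IntermediateField.finiteDimensional_iSup_of_finite
  have hker : ∀ g : GQ, (∀ z ∈ (L ⊔ ⨆ v : V, Lv v : IntermediateField ℚ QBar), g z = z) →
      ((rhoPow W hΔ m).prod ψ) g = 1 := fun g hg => Prod.ext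
    (hrL g fun z hz => hg z ((le_sup_left : L ≤ L ⊔ _) hz))
    (LinearMap.ext fun v => Subtype.ext ((hval g v).trans (hfix v g fun z hz =>
      hg z ((le_sup_right : _ ≤ L ⊔ _) (le_iSup Lv v hz)))))
  obtain ⟨ℓ, hℓ, hℓS, B, hB, τ, hτ, he⟩ :=
    Arith.Chebotarev.exists_frobenius_eq ((rhoPow W hΔ m).prod ψ) _ hker g S
  have hℓ2 : ℓ ≠ 2 := fun h => hℓS (h ▸ h2)
  obtain ⟨htr, hdt⟩ := rhoPow_frobenius hΔ hℓ hℓ2 (hgood ℓ hℓ hℓS) hB hτ m
  have er : rhoPow W hΔ m τ = rhoPow W hΔ m g := congrArg Prod.fst he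
  have eψ : ψ τ = ψ g := congrArg Prod.snd he
  rw [← er, htr] at ht
  rw [← er, hdt] at hd
  have hmem : ∀ {y : JZero N}, y ∈ EigPow W N S m → y ∈ V := fun {y} hy => by
    rw [Pic0.mem_torsion, natCast_zsmul]; exact hy.1
  have hsame : ∀ y : JZero N, y ∈ EigPow W N S m → τ • y = g • y := fun y hy => by
    rw [← hval τ ⟨y, hmem hy⟩, eψ, hval]
  have hdvd : ¬ ℓ ∣ N * 2 := fun h => (hℓ.dvd_mul.mp h).elim (fun h => hℓS (hS ℓ hℓ h))
    fun h => hℓ2 ((Nat.prime_dvd_prime_iff_eq hℓ Nat.prime_two).mp h)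
  have h := (GaloisReps.congruenceProperty N 2 ℓ hℓ hdvd B hB m ⟨x, hmem hx⟩).2 τ hτ
  have hgx := galois_mem_eigPow hx g
  rw [show τ • x = g • x from hsame x hx, hsame _ hgx, hgx.2 ℓ hℓ hℓS] at h
  have hcast : ∀ (e e' : ℤ) (y : JZero N), y ∈ EigPow W N S m →
      (e : ZMod (2 ^ m)) = (e' : ZMod (2 ^ m)) → e • y = e' • y := fun e e' y hy hee => by
    obtain ⟨c, hc⟩ := (ZMod.intCast_eq_intCast_iff_dvd_sub e e' _).mp hee
    rw [← sub_eq_zero, ← sub_smul, show e - e' = -c * ((2 ^ m : ℕ) : ℤ) by linarith, mul_zsmul,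
      natCast_zsmul, hy.1, zsmul_zero]
  rw [hcast t (W.apOfModel ℓ) _ hgx ht, hcast d (ℓ : ℤ) x hx (by rw [hd]; push_cast; rfl),
    natCast_zsmul]
  exact h

section
variable (hW : IsClassC W)

theorem isUnit_of_cast_two {n : ℕ} (hn : 0 < n) {c : ZMod (2 ^ n)}
    (h : ZMod.castHom (dvd_pow_self 2 hn.ne') (ZMod 2) c = 1) : IsUnit c := by
  haveI : NeZero (2 ^ n : ℕ) := ⟨pow_ne_zero n two_ne_zero⟩
  rw [← ZMod.natCast_zmod_val c] at h ⊢
  rw [map_natCast, ZMod.natCast_eq_one_iff_odd] at h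
  exact (ZMod.isUnit_iff_coprime _ _).mpr (Nat.Coprime.pow_right n h.coprime_two_right)

theorem trace_cast_two (hn : 0 < m) (g : GQ) :
    ZMod.castHom (dvd_pow_self 2 hn.ne') (ZMod 2) (rhoPow W hW.Δ_ne_zero m g).trace =
      (rhoBar W hW.Δ_ne_zero g).trace := by
  rw [← rhoPow_map hW.Δ_ne_zero (ZMod.castHom (dvd_pow_self 2 hn.ne') (ZMod 2)) g,
    Matrix.trace_fin_two, Matrix.trace_fin_two, map_add]
  rfl

theorem det_cast_two (hn : 0 < m) (g : GQ) :
    ZMod.castHom (dvd_pow_self 2 hn.ne') (ZMod 2) (rhoPow W hW.Δ_ne_zero m g).det = 1 := by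
  rw [RingHom.map_det, ← rhoBar_det hW.Δ_ne_zero g,
    ← rhoPow_map hW.Δ_ne_zero (ZMod.castHom (dvd_pow_self 2 hn.ne') (ZMod 2)) g]
  rfl

include hS h2 hgood in
/-- The kernel of `rhoPow m` fixes eigen torsion. -/
theorem smul_eq_of_rhoPow_eq_one (hm : 0 < m) {x : JZero N} (hx : x ∈ EigPow W N S m) {τ : GQ}
    (hτ : rhoPow W hW.Δ_ne_zero m τ = 1) : τ • x = x := by
  haveI : NeZero (2 ^ m : ℕ) := ⟨pow_ne_zero m two_ne_zero⟩
  let ψ := eigRep W N S m
  have hψ : ∀ (g : GQ) (y : EigPow W N S m), ((ψ g y : EigPow W N S m) : JZero N) =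
      g • (y : JZero N) := coe_eigRep
  have hq : ∀ g, ψ g * ψ g - (rhoPow W hW.Δ_ne_zero m g).trace • ψ g +
      (rhoPow W hW.Δ_ne_zero m g).det • (1 : Module.End (ZMod (2 ^ m)) (EigPow W N S m)) = 0 := by
    intro g
    refine LinearMap.ext fun y => Subtype.ext ?_
    obtain ⟨t, ht⟩ := ZMod.intCast_surjective (rhoPow W hW.Δ_ne_zero m g).trace
    obtain ⟨d, hd⟩ := ZMod.intCast_surjective (rhoPow W hW.Δ_ne_zero m g).det
    simp only [← ht, ← hd, Int.cast_smul_eq_zsmul, LinearMap.add_apply, LinearMap.sub_apply,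
      LinearMap.smul_apply, Module.End.mul_apply, Module.End.one_apply, LinearMap.zero_apply,
      AddSubgroup.coe_add, AddSubgroup.coe_sub, AddSubgroup.coe_zsmul, hψ, ZeroMemClass.coe_zero]
    exact quadratic hW.Δ_ne_zero hS h2 hgood y.2 g t d ht hd
  obtain ⟨g, hg⟩ := exists_rhoBar_eq hW (X := !![0, 1; 1, 1]) (by decide)
  obtain ⟨k, hk⟩ := exists_rhoBar_eq hW (X := !![1, 1; 0, 1]) (by decide)
  have hc : IsUnit ((rhoPow W hW.Δ_ne_zero m (g * k)).trace ^ 2 -
      2 * (rhoPow W hW.Δ_ne_zero m (g * k)).det -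
      (rhoPow W hW.Δ_ne_zero m (g * k * (k * g))).trace) := by
    refine isUnit_of_cast_two hm ?_
    rw [map_sub, map_sub, map_pow, RingHom.map_mul, map_ofNat, trace_cast_two hW hm, trace_cast_two hW hm,
      det_cast_two hW hm]
    simp only [map_mul, hg, hk]
    decide
  have h := congrArg (fun e : Module.End (ZMod (2 ^ m)) (EigPow W N S m) => ((e ⟨x, hx⟩ :
    EigPow W N S m) : JZero N)) (eq_one_of_ker hq hc hτ)
  simpa only [hψ, Module.End.one_apply] using h

include hS h2 hgood in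
/-- A map commuting with the Galois action cannot agree with an involution of `E[2]` on all
translates of a point of order `2`. -/
theorem exists_galois_nonkilled (hm : 0 < m) {x : JZero N} (hx : x ∈ EigPow W N S m)
    (hx2 : (2 ^ (m - 1)) • x ≠ 0) (f : JZero N →+ JZero N)
    (hf : ∀ (g : GQ) (y : JZero N), f (g • y) = g • f y) {c : ℕ} (hc : Odd c) {σ : GQ}
    (hσ : rhoBar W hW.Δ_ne_zero σ * rhoBar W hW.Δ_ne_zero σ = 1)
    (hσ1 : rhoBar W hW.Δ_ne_zero σ ≠ 1) :
    ∃ g : GQ, (2 ^ (m - 1)) • (σ • g • x + c • f (g • x)) ≠ 0 := by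
  haveI : NeZero (2 ^ m : ℕ) := ⟨pow_ne_zero m two_ne_zero⟩
  by_contra hall
  push Not at hall
  set v : JZero N := (2 ^ (m - 1)) • x with hv
  have hv2 : 2 • v = 0 := by
    rw [hv, ← mul_nsmul', ← pow_succ', Nat.sub_add_cancel hm, hx.1]
  have h2g : ∀ g : GQ, 2 • (g • v) = 0 := fun g => by
    rw [← galois_nsmul_jac, hv2, galois_zero_jac]
  have hagree : ∀ g : GQ, σ • g • v = f (g • v) := by
    intro g
    have h1 := hall g
    rw [nsmul_add, ← galois_nsmul_jac, ← galois_nsmul_jac, smul_comm _ c, ← map_nsmul,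
      ← galois_nsmul_jac, ← hv] at h1
    obtain ⟨k, hk⟩ := hc
    have h2' : 2 • f (g • v) = 0 := by rw [← map_nsmul, h2g, map_zero]
    rw [hk, add_nsmul, mul_comm 2 k, mul_nsmul', h2', nsmul_zero, zero_add, one_nsmul] at h1
    rw [eq_neg_of_add_eq_zero_left h1]
    refine neg_eq_of_add_eq_zero_left ?_
    rw [← two_nsmul, h2']
  obtain ⟨g, hg⟩ := exists_rhoBar_eq hW (X := !![0, 1; 1, 1]) (by decide)
  obtain ⟨g', hg'⟩ : ∃ g' : GQ, g' = σ⁻¹ * g⁻¹ := ⟨_, rfl⟩
  have hfix : (σ * g * g') • v = v := by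
    have h1 : σ • g • g' • v = g • σ • g' • v := by
      rw [hagree g', ← hf, ← mul_smul g g', hagree]
    rw [mul_smul, mul_smul, h1, ← mul_smul σ g', hg', mul_inv_cancel_left, smul_inv_smul]
  have hvmem : v ∈ EigPow W N S m := AddSubgroup.nsmul_mem _ hx _
  obtain ⟨t, ht⟩ := ZMod.intCast_surjective (rhoPow W hW.Δ_ne_zero m (σ * g * g')).trace
  obtain ⟨d, hd⟩ := ZMod.intCast_surjective (rhoPow W hW.Δ_ne_zero m (σ * g * g')).det
  have h := quadratic hW.Δ_ne_zero hS h2 hgood hvmem _ t d ht hd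
  rw [hfix, hfix] at h
  have ht1 : (t : ZMod 2) = 1 := by
    have h1 := trace_cast_two hW hm (σ * g * g')
    rw [← ht, map_intCast] at h1
    have hσi : rhoBar W hW.Δ_ne_zero σ⁻¹ = rhoBar W hW.Δ_ne_zero σ := by
      calc _ = rhoBar W hW.Δ_ne_zero σ⁻¹ * (rhoBar W hW.Δ_ne_zero σ * rhoBar W hW.Δ_ne_zero σ) := by
            rw [hσ, mul_one]
        _ = _ := by rw [← mul_assoc, ← map_mul, inv_mul_cancel, map_one, one_mul]
    have hgi : rhoBar W hW.Δ_ne_zero g⁻¹ = !![1, 1; 1, 0] := by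
      have h3 : (!![1, 1; 1, 0] : M2 (ZMod 2)) * !![0, 1; 1, 1] = 1 := by decide
      calc _ = (!![1, 1; 1, 0] * rhoBar W hW.Δ_ne_zero g) * rhoBar W hW.Δ_ne_zero g⁻¹ := by
            rw [hg, h3, one_mul]
        _ = _ := by rw [mul_assoc, ← map_mul, mul_inv_cancel, map_one, mul_one]
    have key : ∀ s : M2 (ZMod 2), s * s = 1 → s ≠ 1 →
        (s * !![0, 1; 1, 1] * (s * !![1, 1; 1, 0])).trace = 1 := by decide
    rw [h1, hg', map_mul, map_mul, map_mul, hσi, hgi, hg]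
    exact key _ hσ hσ1
  have hd1 : (d : ZMod 2) = 1 := by
    have h1 := det_cast_two hW hm (σ * g * g')
    rwa [← hd, map_intCast] at h1
  have hpar : ∀ e : ℤ, (e : ZMod 2) = 1 → e • v = v := by
    intro e he
    obtain ⟨j, hj⟩ := (ZMod.intCast_eq_intCast_iff_dvd_sub 1 e 2).mp (by rw [he]; norm_num)
    rw [show e = j * 2 + 1 by push_cast at hj; linarith, add_zsmul, mul_zsmul,
      show (2 : ℤ) • v = 0 by rw [two_zsmul, ← two_nsmul, hv2], zsmul_zero, zero_add, one_zsmul]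
  rw [hpar t ht1, hpar d hd1, sub_self, zero_add] at h
  exact hx2 h

end

end Fermat.Agent.TwoAdic.Removal
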