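import Fermat.Agent.RT.LowerQ.Normalise
import Fermat.Agent.RT.LowerQ.Incl

/-!
# Balanced Kummer functions of any modulus

`exists_balanced_mod` is the balanced function of an inertia-fixed eigen class for an arbitrary
modulus.
-/

set_option autoImplicit false
set_option synthInstance.maxHeartbeats 400000
set_option maxHeartbeats 1000000
set_option linter.unusedSectionVars false

noncomputable section

namespace Fermat.Agent.TwoAdic.Removal

open AlgebraicCurve ModularCurve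
open Fermat.Agent.JacTorsion (divGrp toTorsion divQuot smul_divQuot eq_of_smul_eq)
open Fermat.Agent.Semistable Fermat.Agent.RT.Mazur Fermat.Agent.RT.MazurP Fermat.Agent.RT.LowerQ
open Arith (QBar GQ)

variable {A : ValuationSubring QBar} {q : ℕ} [hq : Fact q.Prime] {M : ℕ} [NeZero M]
  {hqM : ¬ q ∣ M} (hA : A.LiesOverPrime q)

include hA in
/-- The balanced Kummer function, for every modulus `m`. -/
theorem exists_balanced_mod {m : ℕ} [NeZero m] {x : JZero (q * M)} (hmx : m • x = 0)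
    (hfix : ∀ τ ∈ A.inertiaSubgroupIn ℚ, τ • x = x) {l : ℕ} (hl : l.Prime) (hN : ¬ l ∣ q * M)
    {a : ℤ} (hx : heckeOperatorBar (q * M) ⟨l, hl⟩ x = a • x) :
    ∃ (F : loc2 A (iota2 M q hqM)) (fD : divGrp QBar (FB (q * M)) m),
      ((fD : (FB (q * M))ˣ) : FB (q * M)) = (F : FB (q * M)) ∧
      InertiaFixed A ((F : FB (q * M)) : LSer) ∧
      (∀ s, red2 A (iota2 M q hqM) F s ≠ 0) ∧
      (toTorsion (Additive.ofMul fD) : JZero (q * M)) = (a - ((l : ℤ) + 1)) • x := by
  have : NeZero l := ⟨hl.ne_zero⟩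
  obtain ⟨f, hfx, -, hff⟩ := exists_rational_kummer (m := m) A
    ⟨x, Pic0.mem_torsion.mpr (by rw [natCast_zsmul]; exact hmx)⟩ hfix
  have hfx' : (toTorsion (Additive.ofMul f) : JZero (q * M)) = x := congrArg Subtype.val hfx
  obtain ⟨f', hf', hT⟩ := exists_norm_divGrp l hl f
  set C := unramField (p := q) hA
  set f₀ : FB (q * M) := ((f : (FB (q * M))ˣ) : FB (q * M))
  set N := heckeNorm (q * M) l f₀
  have hf00 : f₀ ≠ 0 := Units.ne_zero _
  have hN0 : N ≠ 0 := heckeNorm_ne_zero hf00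
  have hC : ∀ {y : FB (q * M)}, InertiaFixed A (y : LSer) → ∀ s, C.Fix (iota2 M q hqM s y) :=
    fun hy s => CoefField.fix_of_inertiaFixed (fix_iota2 hy s)
  have hfr : ∀ s (y : FB (q * M)), iota2 M q hqM s y ∈ fracS A := iota2_fracS M q hqM
  have hz : ∀ s {y : FB (q * M)}, y ≠ 0 → iota2 M q hqM s y ≠ 0 := fun s y hy =>
    (map_ne_zero _).mpr hy
  have hNfix : ∀ s, C.Fix (iota2 M q hqM s N) := fun s =>
    fix_iota2_heckeNorm q M l C hqM hl hN s (hC hff s)
  have hFfix : InertiaFixed A ((N * (f₀ ^ (l + 1))⁻¹ : FB (q * M)) : LSer) := by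
    push_cast
    exact InertiaFixed.mul (fun τ hτ => hNfix 0 τ hτ) (hff.pow (l + 1)).inv
  have hord : ∀ s, IsGUnit A (iota2 M q hqM s (N * (f₀ ^ (l + 1))⁻¹)) := by
    intro s
    have h1 : C.gord (iota2 M q hqM s N) = ((l : ℤ) + 1) * C.gord (iota2 M q hqM s f₀) :=
      gord_heckeImage hA hq.out C (hfr s f₀) (hz s hf00) (hC hff s) (hfr s N)
        (fun ζ hζ => qExpand_iota2_heckeNorm q M l hqM hl hN s hζ f₀)
    have h0 : C.gord (iota2 M q hqM s (N * (f₀ ^ (l + 1))⁻¹)) = 0 := by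
      rw [map_mul, map_inv₀, map_pow (iota2 M q hqM s),
        CoefField.gord_mul hA hq.out (hfr s N) (inv_mem (pow_mem (hfr s f₀) _)) (hz s hN0)
          (inv_ne_zero (pow_ne_zero _ (hz s hf00))) (hNfix s) ((hC hff s).pow (l + 1)).inv,
        CoefField.gord_inv hA hq.out (pow_mem (hfr s f₀) _) (pow_ne_zero _ (hz s hf00))
          ((hC hff s).pow (l + 1)),
        CoefField.gord_pow hA hq.out (hfr s f₀) (hz s hf00) (hC hff s) (l + 1), h1]
      push_cast
      ring
    have h := CoefField.gord_spec (C := C) hA hq.out (hfr s (N * (f₀ ^ (l + 1))⁻¹))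
      (hz s (mul_ne_zero hN0 (inv_ne_zero (pow_ne_zero _ hf00)))) (hC hFfix s)
    rw [h0, neg_zero, zpow_zero, map_one, one_mul] at h
    exact h
  refine ⟨⟨_, (mem_loc2 _).mpr fun s => (hord s).1⟩, f' * (f ^ (l + 1))⁻¹, ?_, hFfix,
    fun s => (hord s).2, ?_⟩
  · push_cast
    rw [hf']
  · rw [ofMul_mul, ofMul_inv, ofMul_pow, map_add, map_neg, map_nsmul, AddSubgroup.coe_add,
      AddSubgroup.coe_neg, AddSubgroup.coe_nsmul, ← hT, hfx', hx, sub_zsmul, ← natCast_zsmul]
    push_cast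
    rfl

end Fermat.Agent.TwoAdic.Removal

end
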