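import Mathlib

/-!
# Modules on which a group satisfies the characteristic polynomials of a two-dimensional
representation

If two elements have a commutator combination with invertible determinant then the kernel of the
representation acts trivially.
-/

set_option autoImplicit false

namespace Fermat.Agent.TwoAdic.Removal

variable {R : Type*} [CommRing R] {V : Type*} [AddCommGroup V] [Module R V] {G : Type*} [Group G]
  {ρ : G →* Matrix (Fin 2) (Fin 2) R} {ψ : G →* Module.End R V}

/-- The linearised characteristic equation. -/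
theorem mul_add_mul_eq
    (hq : ∀ g, ψ g * ψ g - (ρ g).trace • ψ g + (ρ g).det • (1 : Module.End R V) = 0) (g h : G) :
    ψ g * ψ h + ψ h * ψ g = (ρ h).trace • ψ g + (ρ g).trace • ψ h +
      ((ρ (g * h)).trace - (ρ g).trace * (ρ h).trace) • (1 : Module.End R V) := by
  have hinv : ∀ x : G, (ρ x).det • ψ x⁻¹ = (ρ x).trace • (1 : Module.End R V) - ψ x := by
    intro x
    have h0 := congrArg (fun A => A * ψ x⁻¹) (hq x)
    simp only [add_mul, sub_mul, smul_mul_assoc, zero_mul, one_mul, mul_assoc, ← map_mul,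
      mul_inv_cancel, map_one, mul_one] at h0
    rw [eq_sub_iff_add_eq, add_comm, ← sub_eq_zero, ← h0]
    abel
  have h1 := hinv (g * h)
  have h2 : (ρ (g * h)).det • ψ (g * h)⁻¹ =
      ((ρ h).det • ψ h⁻¹) * ((ρ g).det • ψ g⁻¹) := by
    rw [smul_mul_smul_comm, ← map_mul ψ, mul_inv_rev, map_mul ρ, Matrix.det_mul,
      mul_comm (ρ g).det]
  rw [h2, hinv, hinv, map_mul ψ g h] at h1
  simp only [sub_mul, mul_sub, smul_mul_assoc, mul_smul_comm, one_mul, mul_one, smul_sub,
    smul_smul] at h1
  linear_combination (norm := module) h1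

/-- **The kernel of the representation acts trivially.** -/
theorem eq_one_of_ker
    (hq : ∀ g, ψ g * ψ g - (ρ g).trace • ψ g + (ρ g).det • (1 : Module.End R V) = 0) {g k : G}
    (hc : IsUnit ((ρ (g * k)).trace ^ 2 - 2 * (ρ (g * k)).det - (ρ (g * k * (k * g))).trace))
    {h : G} (hh : ρ h = 1) : ψ h = 1 := by
  set u : Module.End R V := ψ h - 1 with hu
  have hmove : ∀ a : G, u * ψ a = ((ρ a).trace • (1 : Module.End R V) - ψ a) * u := by
    intro a
    have h1 := mul_add_mul_eq hq a h
    rw [map_mul ρ, hh, mul_one, Matrix.trace_one, Fintype.card_fin] at h1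
    push_cast at h1
    simp only [hu, sub_mul, mul_sub, smul_mul_assoc, one_mul, mul_one]
    linear_combination (norm := module) h1
  have hcomm : ∀ a b : G, (ψ (a * b) - ψ (b * a)) * u = 0 := by
    intro a b
    have h2 : u * ψ a * ψ b = ((ρ (a * b)).trace • (1 : Module.End R V) - ψ (a * b)) * u := by
      rw [mul_assoc, ← map_mul, hmove]
    rw [hmove, mul_assoc, hmove, ← mul_assoc] at h2
    have h3 := mul_add_mul_eq hq a b
    rw [map_mul ψ, map_mul ψ]
    rw [← sub_eq_zero, ← sub_mul] at h2
    rw [← h2]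
    congr 1
    simp only [sub_mul, mul_sub, smul_mul_assoc, mul_smul_comm, one_mul, mul_one, smul_sub,
      smul_smul, map_mul ψ]
    linear_combination (norm := module) -h3
  have hd : (ρ (k * g)).det = (ρ (g * k)).det := by
    rw [map_mul, map_mul, Matrix.det_mul, Matrix.det_mul, mul_comm]
  have ht : (ρ (k * g)).trace = (ρ (g * k)).trace := by
    rw [map_mul, map_mul, Matrix.trace_mul_comm]
  have h4 := mul_add_mul_eq hq (g * k) (k * g)
  have h5 := hq (g * k)
  have h6 := hq (k * g)
  rw [ht] at h4 h6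
  rw [hd] at h6
  have hsq : (ψ (g * k) - ψ (k * g)) * (ψ (g * k) - ψ (k * g)) =
      ((ρ (g * k)).trace ^ 2 - 2 * (ρ (g * k)).det - (ρ (g * k * (k * g))).trace) •
        (1 : Module.End R V) := by
    simp only [sub_mul, mul_sub]
    linear_combination (norm := module) h5 + h6 - h4
  have h7 : ((ρ (g * k)).trace ^ 2 - 2 * (ρ (g * k)).det - (ρ (g * k * (k * g))).trace) • u = 0 := by
    rw [← one_mul u, ← smul_mul_assoc, ← hsq, mul_assoc, hcomm, mul_zero]
  have h8 : u = 0 := (IsUnit.smul_eq_zero hc).mp h7
  exact sub_eq_zero.mp h8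

end Fermat.Agent.TwoAdic.Removal
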